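/-
Program A (S42 / S29), skeleton leaf 13 `LeafAN5` of `Fermat/Agent/S42/H96/Skeleton.lean`
(helper16): root data over `ℂ` are stable under division by a `p`-th power.

If `g · b^p = c` with a holomorphic `p`-th root `G` of `Θ_ℂ(c)` of character `ζ_p ^ ψ`, and
`g = g' · w^p` with `w = a'/b' ≠ 0`, then `g' · (b a')^p = c b'^p` and `G · Θ_ℂ(b')` is a
holomorphic `p`-th root of `Θ_ℂ(c b'^p)` with the same character (`Θ_ℂ(b')` is `Γ₀(N)`-invariant).
-/
import Mathlib
import Fermat.Agent.S42.H96.Skeleton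
import Fermat.Agent.S29.H37.FieldC

set_option autoImplicit false

open UpperHalfPlane CongruenceSubgroup ModularCurve
open Fermat.Agent.S24 Fermat.Agent.S42.H96
open scoped MatrixGroups Manifold

noncomputable section

namespace Fermat.Agent.S42.H16

/-- `evC` of the skeleton is `evFC` of `S29/H37/FieldC`. -/
theorem evC_eq_evFC (N : ℕ) : evC N = Fermat.Agent.S29.H37.evFC N := rfl

/-- `ThetaC` of the skeleton is `ThetaC` of `S29/H37/ThetaC`. -/
theorem ThetaC_eq_ThetaC (N : ℕ) : ThetaC N = Fermat.Agent.S29.H37.ThetaC N := rfl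

/-- Every element of `M_ℂ` is a quotient `a(j_d) / b(j_d)`. -/
theorem evC_frac (N : ℕ) [NeZero N] (f : MC N) :
    ∃ a b : MvPolynomial (N.divisors) ℂ, evC N b ≠ 0 ∧ f = evC N a / evC N b :=
  Fermat.Agent.S29.H37.evFC_frac N f

/-- `Θ_ℂ(b)` is holomorphic. -/
theorem mdiff_ThetaC (N : ℕ) (b : MvPolynomial (N.divisors) ℂ) : MDiff (ThetaC N b) :=
  Fermat.Agent.S29.H37.mdiff_ThetaC N b

/-- `Θ_ℂ(b)` is `Γ₀(N)`-invariant. -/
theorem ThetaC_smul (N : ℕ) [NeZero N] (γ : Gamma0 N) (b : MvPolynomial (N.divisors) ℂ)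
    (τ : ℍ) : ThetaC N b ((γ : SL(2, ℤ)) • τ) = ThetaC N b τ :=
  Fermat.Agent.S29.H37.ThetaC_smul_of_mem N γ.2 b τ

/-- Multiplying a function with character `ζ_p ^ ψ` by a `Γ₀(N)`-invariant function. -/
theorem hasChar_mul_ThetaC (N p : ℕ) [NeZero N] {ψ : Additive (Gamma0 N) →+ ZMod p}
    {G : ℍ → ℂ} (hG : HasChar N p ψ G) (b : MvPolynomial (N.divisors) ℂ) :
    HasChar N p ψ (G * ThetaC N b) := by
  intro γ τ
  rw [Pi.mul_apply, Pi.mul_apply, hG γ τ, ThetaC_smul N γ b τ, mul_assoc]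

/-- **Skeleton leaf 13** (`LeafAN5`): root data over `ℂ` are stable under division by a nonzero
`p`-th power. -/
theorem leafAN5 (N p : ℕ) [NeZero N] : LeafAN5 N p := by
  intro ψ g g' w hroot hw hgg'
  obtain ⟨c, b, G, hb, hgb, hG, hGp, hGc⟩ := hroot
  obtain ⟨a', b', hb', hwab⟩ := evC_frac N w
  have ha' : evC N a' ≠ 0 := by
    intro h0
    apply hw
    rw [hwab, h0, zero_div]
  have hwa : evC N a' = w * evC N b' := by
    rw [hwab, div_mul_cancel₀ _ hb']
  refine ⟨c * b' ^ p, b * a', G * ThetaC N b', ?_, ?_, hG.mul (mdiff_ThetaC N b'), fun τ => ?_,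
    hasChar_mul_ThetaC N p hGc b'⟩
  · rw [map_mul]
    exact mul_ne_zero hb ha'
  · rw [map_mul, map_mul, map_pow, ← hgb, hgg', hwa]
    ring
  · rw [Pi.mul_apply, mul_pow, hGp τ, map_mul, map_pow, Pi.mul_apply, Pi.pow_apply]

end Fermat.Agent.S42.H16
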