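/-
Program A (S42 / S29), skeleton leaf 9 `LeafPINV` of `Fermat/Agent/S42/H96/Skeleton.lean`
(helper16): the property `PC` ("`p` divides the order at every place of `M_ℂ` over a finite value
of `j`") is invariant under the coefficientwise action of `Aut(ℂ)`.

The semilinear automorphism `s = arithmeticGalois σ` acts on the places of `M_ℂ`, with
`(s • v).ord (s • g) = v.ord g` (Prelude), and it fixes `j` (rational `q`-coefficients).
-/
import Mathlib
import Fermat.Agent.S42.H96.Skeleton

set_option autoImplicit false

open UpperHalfPlane CongruenceSubgroup ModularCurve AlgebraicCurve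
open Fermat.Agent.S24 Fermat.Agent.S42.H96
open scoped MatrixGroups Manifold Pointwise

noncomputable section

namespace Fermat.Agent.S42.H16

/-- The generators `j_d` of `M_ℂ` are fixed by the coefficientwise action of `Aut(ℂ)`. -/
theorem arithmeticGalois_smul_jC (N : ℕ) (σ : ℂ ≃ₐ[ℚ] ℂ) (d : N.divisors) :
    arithmeticGalois (modularFunctionFieldFull N) σ • jC N d = jC N d :=
  Subtype.ext (coeffMap_coeffEmb σ (qExpand ℚ (d : ℕ) jq))

/-- `sigM` fixes the generators `j_d`. -/
theorem sigM_jC (N : ℕ) (σ : ℂ ≃ₐ[ℚ] ℂ) (d : N.divisors) : sigM N σ (jC N d) = jC N d :=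
  arithmeticGalois_smul_jC N σ d

/-- Membership in the valuation ring of a transported place. -/
theorem mem_inv_smul_place_iff {K F : Type*} [Field K] [Field F] [Algebra K F]
    (s : SemilinearAut K F) (v : Place K F) (x : F) :
    x ∈ (s⁻¹ • v).toValuationSubring ↔ s • x ∈ v.toValuationSubring := by
  rw [SemilinearAut.smul_toValuationSubring,
    ValuationSubring.mem_pointwise_smul_iff_inv_smul_mem, inv_inv]

/-- The order of `s • g` at `v` is the order of `g` at the transported place `s⁻¹ • v`. -/
theorem ord_smul_eq {K F : Type*} [Field K] [Field F] [Algebra K F]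
    (s : SemilinearAut K F) (v : Place K F) (g : F) : v.ord (s • g) = (s⁻¹ • v).ord g := by
  have h := SemilinearAut.ord_smul s (s⁻¹ • v) g
  rwa [smul_inv_smul] at h

/-- **Skeleton leaf 9** (`LeafPINV`): `PC` is invariant under `Aut(ℂ)`. -/
theorem leafPINV (N p : ℕ) [NeZero N] : LeafPINV N p := by
  intro σ g hg v hv
  set s : SemilinearAut ℂ (MC N) := arithmeticGalois (modularFunctionFieldFull N) σ with hs
  show (p : ℤ) ∣ v.ord (s • g)
  rw [ord_smul_eq s v g]
  refine hg (s⁻¹ • v) ?_
  rw [mem_inv_smul_place_iff, hs, arithmeticGalois_smul_jC]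
  exact hv

end Fermat.Agent.S42.H16
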